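/-
S15 / Dict / AN : Liouville's theorem for elliptic functions.   Architect helper260, proof helper230.
-/
import Mathlib

set_option autoImplicit false

namespace Fermat.Agent.S15.Dict.AN

open Filter Topology

/-- **Liouville for elliptic functions.**  A meromorphic function, periodic under the lattice `L`,
all of whose orders are non-negative, is constant off its (removable) singularities. -/
theorem liouville_eventually (L : PeriodPair) {f : ℂ → ℂ} (hf : Meromorphic f)
    (hper : ∀ z : ℂ, ∀ l ∈ L.lattice, f (z + l) = f z)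
    (hord : ∀ z, 0 ≤ meromorphicOrderAt f z) :
    ∃ c : ℂ, ∀ z, ∀ᶠ w in 𝓝[≠] z, f w = c := by
  have hfU : MeromorphicOn f Set.univ := fun z _ => hf z
  set g := toMeromorphicNFOn f Set.univ with hg
  have hgf : ∀ z, g =ᶠ[𝓝[≠] z] f := fun z =>
    hfU.toMeromorphicNFOn_eq_self_on_nhdsNE (Set.mem_univ z)
  have hgan : ∀ z, AnalyticAt ℂ g z := by
    intro z
    have h1 : MeromorphicNFAt g z := meromorphicNFOn_toMeromorphicNFOn f Set.univ (Set.mem_univ z)
    rw [← h1.meromorphicOrderAt_nonneg_iff_analyticAt, hg,
      meromorphicOrderAt_toMeromorphicNFOn hfU (Set.mem_univ z)]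
    exact hord z
  have hgd : Differentiable ℂ g := fun z => (hgan z).differentiableAt
  have hgper : ∀ z w, w ∈ L.lattice → g (z + w) = g z := by
    intro z w hw
    have h1 : Tendsto g (𝓝[≠] z) (𝓝 (g z)) :=
      (hgd.continuous.tendsto z).mono_left nhdsWithin_le_nhds
    have h2 : Tendsto (fun u => g (u + w)) (𝓝[≠] z) (𝓝 (g (z + w))) :=
      ((hgd.continuous.comp (continuous_add_const w)).tendsto z).mono_left nhdsWithin_le_nhds
    have h3 : (fun u => g (u + w)) =ᶠ[𝓝[≠] z] g := by
      have h4 : ∀ᶠ u in 𝓝[≠] z, g (u + w) = f (u + w) := by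
        have ht : Tendsto (fun u => u + w) (𝓝[≠] z) (𝓝[≠] (z + w)) := by
          apply tendsto_nhdsWithin_of_tendsto_nhds_of_eventually_within
          · exact ((continuous_add_const w).tendsto z).mono_left nhdsWithin_le_nhds
          · filter_upwards [self_mem_nhdsWithin] with u hu
            simpa using hu
        exact ht.eventually (hgf (z + w))
      filter_upwards [h4, hgf z] with u hu hu'
      rw [hu, hper u w hw, hu']
    exact tendsto_nhds_unique (h2.congr' h3) h1
  have hb := (IsZLattice.isCompact_range_of_periodic L.lattice g hgd.continuous hgper).isBounded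
  refine ⟨g 0, fun z => ?_⟩
  filter_upwards [hgf z] with w hw
  rw [← hw]
  exact hgd.apply_eq_apply_of_bounded hb w 0

end Fermat.Agent.S15.Dict.AN
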