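/-
S15 / Dict / AN : corollaries of Liouville's theorem for elliptic functions.  Architect helper260.
-/
import Fermat.Agent.S15.Dict.AN.Tools.Liouville

set_option autoImplicit false

namespace Fermat.Agent.S15.Dict.AN

open Filter Topology

/-- Same as `liouville_eventually`, value at continuity points and limits at all points. -/
theorem liouville (L : PeriodPair) {f : ℂ → ℂ} (hf : Meromorphic f)
    (hper : ∀ z : ℂ, ∀ l ∈ L.lattice, f (z + l) = f z)
    (hord : ∀ z, 0 ≤ meromorphicOrderAt f z) :
    ∃ c : ℂ, (∀ z, ContinuousAt f z → f z = c) ∧ (∀ z, Tendsto f (𝓝[≠] z) (𝓝 c)) := by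
  obtain ⟨c, hc⟩ := liouville_eventually L hf hper hord
  have hlim : ∀ z, Tendsto f (𝓝[≠] z) (𝓝 c) := fun z =>
    (tendsto_const_nhds (x := c)).congr' ((hc z).mono fun _ hw => hw.symm)
  refine ⟨c, fun z hz => ?_, hlim⟩
  exact tendsto_nhds_unique (hz.tendsto.mono_left nhdsWithin_le_nhds) (hlim z)

/-- The order of a periodic function is periodic. -/
theorem order_add_period {f : ℂ → ℂ} {l : ℂ} (hper : ∀ z : ℂ, f (z + l) = f z) (z : ℂ) :
    meromorphicOrderAt f (z + l) = meromorphicOrderAt f z := by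
  rw [← meromorphicOrderAt_comp_add_const_eq_meromorphicOrderAt]
  exact congrArg (fun g : ℂ → ℂ => meromorphicOrderAt g z) (funext hper)

/-- To check periodicity under a lattice generated by a set `S`, check it on `S`. -/
theorem periodic_of_span {f : ℂ → ℂ} {S : Set ℂ} (h : ∀ s ∈ S, ∀ z : ℂ, f (z + s) = f z) :
    ∀ z : ℂ, ∀ l ∈ Submodule.span ℤ S, f (z + l) = f z := by
  intro z l hl
  induction hl using Submodule.span_induction generalizing z with
  | mem s hs => exact h s hs z
  | zero => rw [add_zero]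
  | add x y _ _ hx hy => rw [← add_assoc, hy, hx]
  | smul a x _ hx =>
    have hneg : ∀ z : ℂ, f (z - x) = f z := fun z => by
      have := hx (z - x)
      rw [sub_add_cancel] at this
      exact this.symm
    induction a using Int.induction_on generalizing z with
    | zero => rw [zero_smul, add_zero]
    | succ n ih => rw [add_smul, one_smul, ← add_assoc, hx, ih]
    | pred n ih => rw [sub_smul, one_smul, ← add_sub_assoc, hneg, ih]

/-- Periodicity under a sup of two `ℤ`-submodules. -/
theorem periodic_of_sup {f : ℂ → ℂ} {A B : Submodule ℤ ℂ}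
    (hA : ∀ z : ℂ, ∀ l ∈ A, f (z + l) = f z) (hB : ∀ z : ℂ, ∀ l ∈ B, f (z + l) = f z) :
    ∀ z : ℂ, ∀ l ∈ A ⊔ B, f (z + l) = f z := by
  intro z l hl
  obtain ⟨a, ha, b, hb, rfl⟩ := Submodule.mem_sup.1 hl
  rw [← add_assoc, hB _ b hb, hA _ a ha]

end Fermat.Agent.S15.Dict.AN
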