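/-
S15 / Dict / AN : order calculus (parity of the order, orders from limits).  Architect helper260.
-/
import Mathlib

set_option autoImplicit false

namespace Fermat.Agent.S15.Dict.AN

open Filter Topology

private theorem Order_tendsto_add (x : ℂ) :
    Tendsto (fun t : ℂ => x + t) (𝓝[≠] (0 : ℂ)) (𝓝[≠] x) := by
  apply tendsto_nhdsWithin_of_tendsto_nhds_of_eventually_within
  · have h : Tendsto (fun t : ℂ => x + t) (𝓝 0) (𝓝 (x + 0)) :=
      (continuous_const.add continuous_id).tendsto 0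
    rw [add_zero] at h
    exact h.mono_left nhdsWithin_le_nhds
  · filter_upwards [self_mem_nhdsWithin] with t ht
    simpa using ht

private theorem Order_tendsto_sub (x : ℂ) :
    Tendsto (fun t : ℂ => x - t) (𝓝[≠] (0 : ℂ)) (𝓝[≠] x) := by
  apply tendsto_nhdsWithin_of_tendsto_nhds_of_eventually_within
  · have h : Tendsto (fun t : ℂ => x - t) (𝓝 0) (𝓝 (x - 0)) :=
      (continuous_const.sub continuous_id).tendsto 0
    rw [sub_zero] at h
    exact h.mono_left nhdsWithin_le_nhds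
  · filter_upwards [self_mem_nhdsWithin] with t ht
    simpa [sub_eq_self] using ht

/-- The order at `x` of a function which is even about `x` is even. -/
theorem even_of_order_eq {f : ℂ → ℂ} {x : ℂ} (hf : MeromorphicAt f x)
    (hev : ∀ᶠ t in 𝓝[≠] (0 : ℂ), f (x - t) = f (x + t)) {n : ℤ}
    (hn : meromorphicOrderAt f x = n) : Even n := by
  obtain ⟨g, hg, hg0, hfg⟩ := (meromorphicOrderAt_eq_int_iff hf).1 hn
  by_contra hodd
  rw [Int.not_even_iff_odd] at hodd
  have h1 := (Order_tendsto_add x).eventually hfg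
  have h2 := (Order_tendsto_sub x).eventually hfg
  have hc : ContinuousAt g x := hg.continuousAt
  have l1 : Tendsto (fun t : ℂ => g (x + t)) (𝓝[≠] (0 : ℂ)) (𝓝 (g x)) :=
    hc.tendsto.comp ((Order_tendsto_add x).mono_right nhdsWithin_le_nhds)
  have l2 : Tendsto (fun t : ℂ => -g (x - t)) (𝓝[≠] (0 : ℂ)) (𝓝 (-g x)) :=
    (hc.tendsto.comp ((Order_tendsto_sub x).mono_right nhdsWithin_le_nhds)).neg
  have heq : (fun t : ℂ => -g (x - t)) =ᶠ[𝓝[≠] (0 : ℂ)] fun t : ℂ => g (x + t) := by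
    filter_upwards [h1, h2, hev, self_mem_nhdsWithin] with t a1 a2 a3 ht
    have ht0 : t ≠ 0 := ht
    rw [a1, a2] at a3
    have e1 : x - t - x = -t := by ring
    have e2 : x + t - x = t := by ring
    rw [e1, e2, smul_eq_mul, smul_eq_mul, ← neg_one_mul t, mul_zpow, hodd.neg_one_zpow] at a3
    have ht' : t ^ n ≠ 0 := zpow_ne_zero _ ht0
    apply mul_left_cancel₀ ht'
    linear_combination a3
  have h3 := tendsto_nhds_unique (l2.congr' heq) l1
  apply hg0
  linear_combination -(1 / 2 : ℂ) * h3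

/-- For a function even about `x`: order `≥ 2k - 1` implies order `≥ 2k`. -/
theorem order_ge_of_even {f : ℂ → ℂ} {x : ℂ} (hf : MeromorphicAt f x)
    (hev : ∀ᶠ t in 𝓝[≠] (0 : ℂ), f (x - t) = f (x + t)) (k : ℤ)
    (h : ((2 * k - 1 : ℤ) : WithTop ℤ) ≤ meromorphicOrderAt f x) :
    ((2 * k : ℤ) : WithTop ℤ) ≤ meromorphicOrderAt f x := by
  cases hn : meromorphicOrderAt f x with
  | top => exact le_top
  | coe n =>
    obtain ⟨m, hm⟩ := even_of_order_eq hf hev hn
    rw [hn, WithTop.coe_le_coe] at h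
    rw [WithTop.coe_le_coe]
    omega

private theorem Order_mul_pow {f : ℂ → ℂ} {x : ℂ} (hf : MeromorphicAt f x) (n : ℕ) :
    MeromorphicAt (fun z => (z - x) ^ n * f z) x ∧
    meromorphicOrderAt (fun z => (z - x) ^ n * f z) x = (n : WithTop ℤ) + meromorphicOrderAt f x := by
  have h1 : MeromorphicAt (fun z : ℂ => (z - x) ^ n) x := by fun_prop
  refine ⟨h1.mul hf, ?_⟩
  have h2 := meromorphicOrderAt_mul h1 hf
  have h3 : meromorphicOrderAt (fun z : ℂ => (z - x) ^ n) x = (n : WithTop ℤ) :=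
    meromorphicOrderAt_pow_id_sub_const
  rw [h3] at h2
  exact h2

/-- If `(z - x)^n f(z) → 0` then the order of `f` at `x` is `≥ 1 - n`. -/
theorem order_ge_of_tendsto_zero {f : ℂ → ℂ} {x : ℂ} (hf : MeromorphicAt f x) (n : ℕ)
    (h : Tendsto (fun z => (z - x) ^ n * f z) (𝓝[≠] x) (𝓝 0)) :
    ((1 - n : ℤ) : WithTop ℤ) ≤ meromorphicOrderAt f x := by
  obtain ⟨h1, h2⟩ := Order_mul_pow hf n
  have h3 := (tendsto_zero_iff_meromorphicOrderAt_pos h1).1 h
  rw [h2] at h3
  cases hn : meromorphicOrderAt f x with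
  | top => exact le_top
  | coe m =>
    rw [hn] at h3
    have h4 : ((0 : ℤ) : WithTop ℤ) < (((n : ℤ) + m : ℤ) : WithTop ℤ) := by
      push_cast
      exact h3
    rw [WithTop.coe_lt_coe] at h4
    rw [WithTop.coe_le_coe]
    omega

/-- If `(z - x)^n f(z)` has a limit then the order of `f` at `x` is `≥ - n`. -/
theorem order_ge_of_tendsto {f : ℂ → ℂ} {x : ℂ} (hf : MeromorphicAt f x) (n : ℕ) (c : ℂ)
    (h : Tendsto (fun z => (z - x) ^ n * f z) (𝓝[≠] x) (𝓝 c)) :
    ((-n : ℤ) : WithTop ℤ) ≤ meromorphicOrderAt f x := by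
  obtain ⟨h1, h2⟩ := Order_mul_pow hf n
  have h3 := (tendsto_nhds_iff_meromorphicOrderAt_nonneg h1).1 ⟨c, h⟩
  rw [h2] at h3
  cases hn : meromorphicOrderAt f x with
  | top => exact le_top
  | coe m =>
    rw [hn] at h3
    have h4 : ((0 : ℤ) : WithTop ℤ) ≤ (((n : ℤ) + m : ℤ) : WithTop ℤ) := by
      push_cast
      exact h3
    rw [WithTop.coe_le_coe] at h4
    rw [WithTop.coe_le_coe]
    omega

/-- If the order of `f` at `x` is `≥ - n` then `(z - x)^n f(z)` has a limit. -/
theorem exists_tendsto_of_order_ge {f : ℂ → ℂ} {x : ℂ} (hf : MeromorphicAt f x) (n : ℕ)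
    (h : ((-n : ℤ) : WithTop ℤ) ≤ meromorphicOrderAt f x) :
    ∃ c : ℂ, Tendsto (fun z => (z - x) ^ n * f z) (𝓝[≠] x) (𝓝 c) := by
  obtain ⟨h1, h2⟩ := Order_mul_pow hf n
  rw [tendsto_nhds_iff_meromorphicOrderAt_nonneg h1, h2]
  cases hn : meromorphicOrderAt f x with
  | top => simp
  | coe m =>
    rw [hn, WithTop.coe_le_coe] at h
    have h4 : ((0 : ℤ) : WithTop ℤ) ≤ (((n : ℤ) + m : ℤ) : WithTop ℤ) := by
      rw [WithTop.coe_le_coe]
      omega
    push_cast at h4
    exact h4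

/-- An analytic function vanishing at `x` has order `≥ 1`. -/
theorem one_le_order_of_analyticAt {f : ℂ → ℂ} {x : ℂ} (hf : AnalyticAt ℂ f x) (h0 : f x = 0) :
    (1 : WithTop ℤ) ≤ meromorphicOrderAt f x := by
  rw [hf.meromorphicOrderAt_eq]
  have h1 : ((1 : ℕ) : ℕ∞) ≤ analyticOrderAt f x := by
    rw [natCast_le_analyticOrderAt_iff_iteratedDeriv_eq_zero hf]
    intro i hi
    obtain rfl : i = 0 := by omega
    simpa using h0
  have h2 := ENat.monotone_map_iff.mpr (Nat.mono_cast (α := ℤ)) h1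
  simpa using h2

/-- An analytic function vanishing at `x` together with its derivative has order `≥ 2`. -/
theorem two_le_order_of_analyticAt {f : ℂ → ℂ} {x : ℂ} (hf : AnalyticAt ℂ f x) (h0 : f x = 0)
    (h1 : deriv f x = 0) : (2 : WithTop ℤ) ≤ meromorphicOrderAt f x := by
  rw [hf.meromorphicOrderAt_eq]
  have h2 : ((2 : ℕ) : ℕ∞) ≤ analyticOrderAt f x := by
    rw [natCast_le_analyticOrderAt_iff_iteratedDeriv_eq_zero hf]
    intro i hi
    obtain rfl | rfl : i = 0 ∨ i = 1 := by omega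
    · simpa using h0
    · simpa using h1
  have h3 := ENat.monotone_map_iff.mpr (Nat.mono_cast (α := ℤ)) h2
  simpa using h3

/-- Product rule for lower bounds of orders. -/
theorem order_mul_ge {f g : ℂ → ℂ} {x : ℂ} (hf : MeromorphicAt f x) (hg : MeromorphicAt g x)
    {m n : ℤ} (hm : (m : WithTop ℤ) ≤ meromorphicOrderAt f x)
    (hn : (n : WithTop ℤ) ≤ meromorphicOrderAt g x) :
    ((m + n : ℤ) : WithTop ℤ) ≤ meromorphicOrderAt (fun z => f z * g z) x := by
  have h := meromorphicOrderAt_mul hf hg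
  have h' : meromorphicOrderAt (fun z => f z * g z) x =
      meromorphicOrderAt f x + meromorphicOrderAt g x := h
  rw [h', WithTop.coe_add]
  exact add_le_add hm hn

/-- Sum rule for lower bounds of orders. -/
theorem order_add_ge {f g : ℂ → ℂ} {x : ℂ} (hf : MeromorphicAt f x) (hg : MeromorphicAt g x)
    {m : ℤ} (hm : (m : WithTop ℤ) ≤ meromorphicOrderAt f x)
    (hn : (m : WithTop ℤ) ≤ meromorphicOrderAt g x) :
    (m : WithTop ℤ) ≤ meromorphicOrderAt (fun z => f z + g z) x :=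
  (le_min hm hn).trans (meromorphicOrderAt_add hf hg)

/-- Difference rule for lower bounds of orders. -/
theorem order_sub_ge {f g : ℂ → ℂ} {x : ℂ} (hf : MeromorphicAt f x) (hg : MeromorphicAt g x)
    {m : ℤ} (hm : (m : WithTop ℤ) ≤ meromorphicOrderAt f x)
    (hn : (m : WithTop ℤ) ≤ meromorphicOrderAt g x) :
    (m : WithTop ℤ) ≤ meromorphicOrderAt (fun z => f z - g z) x := by
  have h1 : (m : WithTop ℤ) ≤ meromorphicOrderAt (fun z => -g z) x := by
    rw [← meromorphicOrderAt_fun_neg]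
    exact hn
  have hg' : MeromorphicAt (fun z => -g z) x := hg.neg
  have h2 := order_add_ge hf hg' hm h1
  simpa only [sub_eq_add_neg] using h2

/-- Translation. -/
theorem order_comp_add (f : ℂ → ℂ) (a x : ℂ) :
    meromorphicOrderAt (fun z => f (z + a)) x = meromorphicOrderAt f (x + a) :=
  meromorphicOrderAt_comp_add_const_eq_meromorphicOrderAt

end Fermat.Agent.S15.Dict.AN
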