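/-
S15 / Dict / AN : basic local facts on the Weierstrass function.  Architect helper260.
-/
import Mathlib

set_option autoImplicit false

namespace Fermat.Agent.S15.Dict.AN

open Filter Topology

variable (L : PeriodPair)

theorem analyticAt_P {z : ℂ} (hz : z ∉ L.lattice) : AnalyticAt ℂ L.weierstrassP z :=
  L.analyticOnNhd_weierstrassP z hz

theorem analyticAt_P' {z : ℂ} (hz : z ∉ L.lattice) : AnalyticAt ℂ L.derivWeierstrassP z :=
  L.analyticOnNhd_derivWeierstrassP z hz

theorem hasDerivAt_P {z : ℂ} (hz : z ∉ L.lattice) :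
    HasDerivAt L.weierstrassP (L.derivWeierstrassP z) z := by
  have h := (analyticAt_P L hz).differentiableAt.hasDerivAt
  rwa [L.deriv_weierstrassP] at h

/-- periodicity, in membership form -/
theorem P_add_mem (z : ℂ) {l : ℂ} (hl : l ∈ L.lattice) :
    L.weierstrassP (z + l) = L.weierstrassP z :=
  L.weierstrassP_add_coe z ⟨l, hl⟩

theorem P'_add_mem (z : ℂ) {l : ℂ} (hl : l ∈ L.lattice) :
    L.derivWeierstrassP (z + l) = L.derivWeierstrassP z :=
  L.derivWeierstrassP_add_coe z ⟨l, hl⟩

/-- `℘ z = ℘ w` if `z - w ∈ Λ`. -/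
theorem P_eq_of_sub_mem {z w : ℂ} (h : z - w ∈ L.lattice) :
    L.weierstrassP z = L.weierstrassP w := by
  have := P_add_mem L w h
  rwa [add_sub_cancel] at this

/-- `℘ z = ℘ w` if `z + w ∈ Λ`. -/
theorem P_eq_of_add_mem {z w : ℂ} (h : z + w ∈ L.lattice) :
    L.weierstrassP z = L.weierstrassP w := by
  rw [← L.weierstrassP_neg w]
  exact P_eq_of_sub_mem L (by rwa [sub_neg_eq_add])

theorem P'_eq_of_sub_mem {z w : ℂ} (h : z - w ∈ L.lattice) :
    L.derivWeierstrassP z = L.derivWeierstrassP w := by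
  have := P'_add_mem L w h
  rwa [add_sub_cancel] at this

theorem P'_eq_neg_of_add_mem {z w : ℂ} (h : z + w ∈ L.lattice) :
    L.derivWeierstrassP z = - L.derivWeierstrassP w := by
  rw [← L.derivWeierstrassP_neg w]
  exact P'_eq_of_sub_mem L (by rwa [sub_neg_eq_add])

/-- `℘'(h) = 0` at a half period. -/
theorem P'_eq_zero_of_two_mul_mem {h : ℂ} (hh : 2 * h ∈ L.lattice) :
    L.derivWeierstrassP h = 0 := by
  have h1 := P'_eq_neg_of_add_mem L (z := h) (w := h) (by rwa [← two_mul])
  have h2 : (2 : ℂ) * L.derivWeierstrassP h = 0 := by linear_combination h1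
  exact (mul_eq_zero.1 h2).resolve_left two_ne_zero

/-- `℘` and `G` only depend on the lattice. -/
theorem P_congr {L M : PeriodPair} (h : L.lattice = M.lattice) :
    L.weierstrassP = M.weierstrassP := by
  funext z
  unfold PeriodPair.weierstrassP
  rw [h]

theorem P'_congr {L M : PeriodPair} (h : L.lattice = M.lattice) :
    L.derivWeierstrassP = M.derivWeierstrassP := by
  funext z
  unfold PeriodPair.derivWeierstrassP
  rw [h]

theorem G_congr {L M : PeriodPair} (h : L.lattice = M.lattice) : L.G = M.G := by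
  funext n
  unfold PeriodPair.G
  rw [h]

theorem g₂_congr {L M : PeriodPair} (h : L.lattice = M.lattice) : L.g₂ = M.g₂ := by
  unfold PeriodPair.g₂
  rw [G_congr h]

theorem g₃_congr {L M : PeriodPair} (h : L.lattice = M.lattice) : L.g₃ = M.g₃ := by
  unfold PeriodPair.g₃
  rw [G_congr h]

end Fermat.Agent.S15.Dict.AN
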