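/-
S15 / Dict / AN : limits and orders of the Weierstrass function.  Architect helper260.
(proofs: helper29)
-/
import Fermat.Agent.S15.Dict.AN.Tools.PBasic
import Fermat.Agent.S15.Dict.AN.Tools.Order

set_option autoImplicit false

namespace Fermat.Agent.S15.Dict.AN

open Filter Topology

variable (L : PeriodPair)

/-- `℘(z) - 1/z² → 0` as `z → 0`. -/
theorem tendsto_P_sub_inv_sq :
    Tendsto (fun z => L.weierstrassP z - 1 / z ^ 2) (𝓝[≠] (0 : ℂ)) (𝓝 0) := by
  have h1 : (fun z => L.weierstrassP z - 1 / z ^ 2) = L.weierstrassPExcept 0 := by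
    funext z
    have h := L.weierstrassPExcept_def (0 : L.lattice) z
    simp only [ZeroMemClass.coe_zero, sub_zero] at h
    rw [h]
    simp
    ring
  rw [h1]
  have h2 : ContinuousAt (L.weierstrassPExcept 0) 0 := (L.analyticAt_weierstrassPExcept 0).continuousAt
  have h3 : Tendsto (L.weierstrassPExcept 0) (𝓝 0) (𝓝 0) := by
    have := h2.tendsto
    rwa [L.weierstrassPExcept_zero] at this
  exact h3.mono_left nhdsWithin_le_nhds

/-- `(z - l)² ℘(z) → 1` as `z → l ∈ Λ`. -/
theorem tendsto_sq_mul_P {l : ℂ} (hl : l ∈ L.lattice) :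
    Tendsto (fun z => (z - l) ^ 2 * L.weierstrassP z) (𝓝[≠] l) (𝓝 1) := by
  have hc : ContinuousAt
      (fun z => (z - l) ^ 2 * L.weierstrassPExcept l z + 1 - (z - l) ^ 2 / l ^ 2) l := by
    have h2 : ContinuousAt (L.weierstrassPExcept l) l :=
      (L.analyticAt_weierstrassPExcept l).continuousAt
    have h3 : ContinuousAt (fun z : ℂ => (z - l) ^ 2) l := by fun_prop
    exact ((h3.mul h2).add continuousAt_const).sub (h3.div_const _)
  have ht : Tendsto
      (fun z => (z - l) ^ 2 * L.weierstrassPExcept l z + 1 - (z - l) ^ 2 / l ^ 2) (𝓝[≠] l)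
      (𝓝 1) := by
    have := hc.tendsto
    simp only [sub_self, ne_eq, OfNat.ofNat_ne_zero, not_false_eq_true, zero_pow, zero_mul,
      zero_add, zero_div, sub_zero] at this
    exact this.mono_left nhdsWithin_le_nhds
  refine ht.congr' ?_
  filter_upwards [self_mem_nhdsWithin] with z hz
  have hz' : z ≠ l := hz
  rw [← L.ite_eq_one_sub_sq_mul_weierstrassP l hl z, if_neg hz']

/-- `(z - l)² (℘(z) - c) → 1` as `z → l ∈ Λ`. -/
theorem tendsto_sq_mul_P_sub {l : ℂ} (hl : l ∈ L.lattice) (c : ℂ) :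
    Tendsto (fun z => (z - l) ^ 2 * (L.weierstrassP z - c)) (𝓝[≠] l) (𝓝 1) := by
  have h1 := tendsto_sq_mul_P L hl
  have h2 : Tendsto (fun z : ℂ => (z - l) ^ 2 * c) (𝓝[≠] l) (𝓝 0) := by
    have hc : ContinuousAt (fun z : ℂ => (z - l) ^ 2 * c) l := by fun_prop
    have := hc.tendsto
    simp only [sub_self, ne_eq, OfNat.ofNat_ne_zero, not_false_eq_true, zero_pow, zero_mul] at this
    exact this.mono_left nhdsWithin_le_nhds
  have h3 := h1.sub h2
  rw [sub_zero] at h3
  refine h3.congr fun z => ?_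
  ring

/-- order of `℘ - c` at a lattice point -/
theorem order_P_sub_const {l : ℂ} (hl : l ∈ L.lattice) (c : ℂ) :
    meromorphicOrderAt (fun z => L.weierstrassP z - c) l = ((-2 : ℤ) : WithTop ℤ) := by
  have h0 : meromorphicOrderAt L.weierstrassP l = ((-2 : ℤ) : WithTop ℤ) := by
    rw [L.order_weierstrassP l hl]; rfl
  have hc : AnalyticAt ℂ (fun _ : ℂ => -c) l := analyticAt_const
  have h1 : meromorphicOrderAt L.weierstrassP l < meromorphicOrderAt (fun _ : ℂ => -c) l := by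
    rw [h0]
    refine lt_of_lt_of_le ?_ hc.meromorphicOrderAt_nonneg
    exact_mod_cast (by norm_num : (-2 : ℤ) < 0)
  have h2 := meromorphicOrderAt_add_eq_left_of_lt hc.meromorphicAt h1
  rw [h0] at h2
  rw [← h2]
  congr 1

/-- `℘ - c` is nowhere locally zero. -/
theorem order_P_sub_const_ne_top (c x : ℂ) :
    meromorphicOrderAt (fun z => L.weierstrassP z - c) x ≠ ⊤ := by
  have hm : MeromorphicOn (fun z => L.weierstrassP z - c) Set.univ := fun z _ =>
    (L.meromorphic_weierstrassP z).sub (MeromorphicAt.const c z)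
  refine hm.meromorphicOrderAt_ne_top_of_isPreconnected (x := 0) isPreconnected_univ
    (Set.mem_univ _) (Set.mem_univ _) ?_
  rw [order_P_sub_const L (zero_mem _) c]
  exact WithTop.coe_ne_top

/-- `z⁶ ℘'(z)² → 4` as `z → 0`. -/
theorem POrder_tendsto_P'_sq :
    Tendsto (fun z => z ^ 6 * L.derivWeierstrassP z ^ 2) (𝓝[≠] (0 : ℂ)) (𝓝 4) := by
  have h1 : Tendsto (fun z : ℂ => z ^ 2 * L.weierstrassP z) (𝓝[≠] (0 : ℂ)) (𝓝 1) := by
    have := tendsto_sq_mul_P L (l := 0) (zero_mem _)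
    simpa using this
  have hz : ∀ n : ℕ, n ≠ 0 → Tendsto (fun z : ℂ => z ^ n) (𝓝[≠] (0 : ℂ)) (𝓝 0) := by
    intro n hn
    have hc : ContinuousAt (fun z : ℂ => z ^ n) 0 := by fun_prop
    have := hc.tendsto
    simp only [ne_eq, hn, not_false_eq_true, zero_pow] at this
    exact this.mono_left nhdsWithin_le_nhds
  have h2 : Tendsto (fun z : ℂ => 4 * (z ^ 2 * L.weierstrassP z) ^ 3 -
      L.g₂ * (z ^ 4 * (z ^ 2 * L.weierstrassP z)) - L.g₃ * z ^ 6) (𝓝[≠] (0 : ℂ))
      (𝓝 (4 * 1 ^ 3 - L.g₂ * (0 * 1) - L.g₃ * 0)) :=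
    (((h1.pow 3).const_mul 4).sub ((((hz 4 (by norm_num)).mul h1)).const_mul L.g₂)).sub
      ((hz 6 (by norm_num)).const_mul L.g₃)
  have h3 : (4 * 1 ^ 3 - L.g₂ * (0 * 1) - L.g₃ * 0 : ℂ) = 4 := by ring
  rw [h3] at h2
  refine h2.congr' ?_
  have hmem : ((L.lattice : Set ℂ) \ {0})ᶜ ∈ 𝓝[≠] (0 : ℂ) :=
    nhdsWithin_le_nhds (L.compl_lattice_sdiff_singleton_mem_nhds 0)
  filter_upwards [hmem, self_mem_nhdsWithin] with z hz1 hz2
  have hz' : z ∉ L.lattice := fun h => hz1 ⟨h, hz2⟩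
  rw [L.derivWeierstrassP_sq z hz']
  ring

/-- `℘'` is nowhere locally zero. -/
theorem order_P'_ne_top (x : ℂ) : meromorphicOrderAt L.derivWeierstrassP x ≠ ⊤ := by
  have hm : MeromorphicOn L.derivWeierstrassP Set.univ := fun z _ =>
    L.meromorphic_derivWeierstrassP z
  refine hm.meromorphicOrderAt_ne_top_of_isPreconnected (x := 0) isPreconnected_univ
    (Set.mem_univ _) (Set.mem_univ _) ?_
  intro htop
  rw [meromorphicOrderAt_eq_top_iff] at htop
  have h1 := POrder_tendsto_P'_sq L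
  have h2 : Tendsto (fun z => z ^ 6 * L.derivWeierstrassP z ^ 2) (𝓝[≠] (0 : ℂ)) (𝓝 0) := by
    refine tendsto_const_nhds.congr' ?_
    filter_upwards [htop] with z hz
    rw [hz]; ring
  have := tendsto_nhds_unique h1 h2
  norm_num at this

/-- `℘ - ℘ w` has order `≥ 1` at every point `x ≡ ± w`. -/
theorem one_le_order_P_sub {w x : ℂ} (hx : x ∉ L.lattice)
    (h : L.weierstrassP x = L.weierstrassP w) :
    (1 : WithTop ℤ) ≤ meromorphicOrderAt (fun z => L.weierstrassP z - L.weierstrassP w) x :=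
  one_le_order_of_analyticAt ((analyticAt_P L hx).sub analyticAt_const) (by rw [h, sub_self])

/-- `℘ - ℘ h` has order `≥ 2` at every point `x` with `℘ x = ℘ h`, `℘' x = 0`. -/
theorem two_le_order_P_sub {h x : ℂ} (hx : x ∉ L.lattice)
    (h0 : L.weierstrassP x = L.weierstrassP h) (h1 : L.derivWeierstrassP x = 0) :
    (2 : WithTop ℤ) ≤ meromorphicOrderAt (fun z => L.weierstrassP z - L.weierstrassP h) x := by
  refine two_le_order_of_analyticAt ((analyticAt_P L hx).sub analyticAt_const)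
    (by rw [h0, sub_self]) ?_
  have hd : HasDerivAt (fun z => L.weierstrassP z - L.weierstrassP h)
      (L.derivWeierstrassP x) x := (hasDerivAt_P L hx).sub_const _
  rw [hd.deriv, h1]

end Fermat.Agent.S15.Dict.AN
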