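/-
S15 / Dict / AN : even elliptic functions with at most a double pole at the lattice.
Architect helper260.
-/
import Fermat.Agent.S15.Dict.AN.Tools.LiouvilleCor
import Fermat.Agent.S15.Dict.AN.Tools.Order
import Fermat.Agent.S15.Dict.AN.Tools.POrder

set_option autoImplicit false

namespace Fermat.Agent.S15.Dict.AN

open Filter Topology

/-- An even elliptic function without poles off `Λ` and of order `≥ -2` at `0` is `α ℘ + β`.
Proof: `α := lim z² f(z)` (`exists_tendsto_of_order_ge`); `g := f - α ℘` satisfies
`z² g(z) → 0`, so its order at `0` is `≥ -1` (`order_ge_of_tendsto_zero`), hence `≥ 0` by parity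
(`order_ge_of_even`); orders at the other lattice points by periodicity (`order_add_period`);
conclude with `liouville`. -/
theorem even_two (L : PeriodPair) {f : ℂ → ℂ} (hf : Meromorphic f)
    (hper : ∀ z : ℂ, ∀ l ∈ L.lattice, f (z + l) = f z)
    (hev : ∀ z, f (-z) = f z)
    (hord : ∀ z, z ∉ L.lattice → 0 ≤ meromorphicOrderAt f z)
    (h0 : ((-2 : ℤ) : WithTop ℤ) ≤ meromorphicOrderAt f 0) :
    ∃ α β : ℂ, ∀ z, z ∉ L.lattice → ContinuousAt f z → f z = α * L.weierstrassP z + β := by
  obtain ⟨α, hα⟩ := exists_tendsto_of_order_ge (hf 0) 2 (by exact_mod_cast h0)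
  have hP : Meromorphic L.weierstrassP := L.meromorphic_weierstrassP
  have hαP : ∀ x, MeromorphicAt (fun z => α * L.weierstrassP z) x := fun x =>
    (MeromorphicAt.const α x).mul (hP x)
  have hg : Meromorphic (fun z => f z - α * L.weierstrassP z) := fun x => (hf x).sub (hαP x)
  have hgper : ∀ z : ℂ, ∀ l ∈ L.lattice,
      f (z + l) - α * L.weierstrassP (z + l) = f z - α * L.weierstrassP z := by
    intro z l hl
    rw [hper z l hl, P_add_mem L z hl]
  -- the order at `0`
  have hlim : Tendsto (fun z => (z - 0) ^ 2 * (f z - α * L.weierstrassP z)) (𝓝[≠] (0 : ℂ))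
      (𝓝 0) := by
    have h1 := hα.sub ((tendsto_sq_mul_P L L.lattice.zero_mem).const_mul α)
    rw [mul_one, sub_self] at h1
    refine h1.congr fun z => ?_
    ring
  have h1 := order_ge_of_tendsto_zero (hg 0) 2 hlim
  have h2 : ((2 * 0 : ℤ) : WithTop ℤ) ≤
      meromorphicOrderAt (fun z => f z - α * L.weierstrassP z) 0 := by
    refine order_ge_of_even (hg 0) (Eventually.of_forall fun t => ?_) 0 (by exact_mod_cast h1)
    show f (0 - t) - α * L.weierstrassP (0 - t) = f (0 + t) - α * L.weierstrassP (0 + t)
    rw [zero_sub, zero_add, hev, L.weierstrassP_neg]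
  have hord' : ∀ z, 0 ≤ meromorphicOrderAt (fun z => f z - α * L.weierstrassP z) z := by
    intro z
    by_cases hz : z ∈ L.lattice
    · have h3 := order_add_period (f := fun z => f z - α * L.weierstrassP z) (l := z)
        (fun w => hgper w z hz) 0
      rw [zero_add] at h3
      rw [h3]
      exact_mod_cast h2
    · have h3 : AnalyticAt ℂ (fun z => α * L.weierstrassP z) z :=
        analyticAt_const.mul (analyticAt_P L hz)
      have h4 := order_sub_ge (hf z) (hαP z) (m := 0) (by exact_mod_cast hord z hz)
        (by exact_mod_cast h3.meromorphicOrderAt_nonneg)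
      exact_mod_cast h4
  obtain ⟨β, hβ, -⟩ := liouville L hg hgper hord'
  refine ⟨α, β, fun z hz hc => ?_⟩
  have h5 : ContinuousAt (fun z => f z - α * L.weierstrassP z) z :=
    hc.sub (continuousAt_const.mul (analyticAt_P L hz).continuousAt)
  have h6 := hβ z h5
  linear_combination h6

end Fermat.Agent.S15.Dict.AN
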